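/-
Generic Kummer covers of the line, part 1 (helper63): places from roots.

`x ∈ F` transcendental, `F / K(x)` finite separable, `K` algebraically closed.  If `y ^ g = P(x)`
with `P ∈ K[X]`, `P(c) ≠ 0`, and `1, y, …, y^(g-1)` are linearly independent over `K(x)`, then
for every `r` with `r ^ g = P(c)` there is a place of `F` at which `x - c` and `y - r` vanish.
Hence the fibre of `x` over `c` has at least `g` places (if `g ≠ 0` in `K`).
-/
import Mathlib
import Fermat.Agent.Lib.RR.Hurwitz.Fibres

set_option autoImplicit false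
set_option linter.style.haveILetI false
set_option linter.unusedSectionVars false

noncomputable section

open AlgebraicCurve IntermediateField Polynomial IsDedekindDomain

namespace Fermat.Agent.RRKum

open Fermat.Agent.RR Fermat.Agent.RRHur

variable {K F : Type*} [Field K] [Field F] [Algebra K F]

/-! ### the two evaluation maps on `K[X][Y]` -/

section Eval

variable (x y : F)

/-- evaluation `K[X][Y] → F` at `(x, y)`. -/
def evalF : K[X][X] →+* F :=
  Polynomial.eval₂RingHom (Polynomial.aeval (R := K) x).toRingHom y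

/-- evaluation `K[X][Y] → K` at `(c, r)`. -/
def evalK (c r : K) : K[X][X] →+* K :=
  Polynomial.eval₂RingHom (Polynomial.evalRingHom c) r

theorem evalF_C (p : K[X]) : evalF x y (C p) = aeval x p := by
  simp [evalF]

theorem evalF_X : evalF (K := K) x y X = y := by
  simp [evalF]

theorem evalK_C (c r : K) (p : K[X]) : evalK c r (C p) = p.eval c := by
  simp [evalK]

theorem evalK_X (c r : K) : evalK c r X = r := by
  simp [evalK]

theorem evalF_eq_sum (R : K[X][X]) {g : ℕ} (hR : R.natDegree < g) :
    evalF x y R = ∑ j ∈ Finset.range g, aeval x (R.coeff j) * y ^ j := by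
  unfold evalF
  rw [Polynomial.coe_eval₂RingHom, Polynomial.eval₂_eq_sum_range' _ hR]
  rfl

end Eval

/-- the kernel computation: if `1, y, …, y^(g-1)` are linearly independent over `K(x)` and
`y ^ g = P(x)`, then every relation `G(x, y) = 0` is a multiple of `Y ^ g - P`, hence vanishes at
every `(c, r)` with `r ^ g = P(c)`. -/
theorem ker_evalF_le {x y : F} (hx : Transcendental K x) {g : ℕ} (hg : 0 < g) (P : K[X])
    (hy : y ^ g = aeval x P)
    (hli : LinearIndependent K⟮x⟯ (fun i : Fin g => y ^ (i : ℕ)))
    {c r : K} (hr : r ^ g = P.eval c) :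
    RingHom.ker (evalF (K := K) x y) ≤ RingHom.ker (evalK c r) := by
  intro G hG
  rw [RingHom.mem_ker] at hG ⊢
  set M : K[X][X] := X ^ g - C P with hM
  have hMm : M.Monic := Polynomial.monic_X_pow_sub_C P hg.ne'
  have hMF : evalF x y M = 0 := by
    rw [hM, map_sub, map_pow, evalF_X, evalF_C, hy, sub_self]
  have hMK : evalK c r M = 0 := by
    rw [hM, map_sub, map_pow, evalK_X, evalK_C, hr, sub_self]
  have hdiv := Polynomial.modByMonic_add_div G M
  set R := G %ₘ M with hRdef
  have hRF : evalF x y R = 0 := by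
    have h1 : evalF x y (R + M * (G /ₘ M)) = 0 := by rw [hdiv]; exact hG
    rwa [map_add, map_mul, hMF, zero_mul, add_zero] at h1
  have hMdeg : M.natDegree = g := by
    rw [hM]
    exact Polynomial.natDegree_X_pow_sub_C
  have hRdeg : R.natDegree < g := by
    by_cases hR0 : R = 0
    · rw [hR0]; simpa using hg
    · have hM1 : M ≠ 1 := by
        intro h
        rw [h] at hMdeg
        simp at hMdeg
        omega
      have := Polynomial.natDegree_modByMonic_lt G hMm hM1
      rwa [hMdeg] at this
  have hR0 : R = 0 := by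
    rw [evalF_eq_sum x y R hRdeg, Finset.sum_range] at hRF
    have hsum : ∑ j : Fin g, (⟨aeval x (R.coeff j), aeval_mem_adjoin_simple x _⟩ : K⟮x⟯) •
        (fun i : Fin g => y ^ (i : ℕ)) j = 0 := by
      rw [← hRF]
      apply Finset.sum_congr rfl
      intro j _
      rfl
    have hcoef := Fintype.linearIndependent_iff.mp hli _ hsum
    refine Polynomial.ext fun j => ?_
    rw [Polynomial.coeff_zero]
    by_cases hj : j < g
    · have h1 := hcoef ⟨j, hj⟩
      have h2 : aeval x (R.coeff j) = 0 := congrArg Subtype.val h1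
      by_contra hne
      exact aeval_ne_zero_of_transcendental hx hne h2
    · exact Polynomial.coeff_eq_zero_of_natDegree_lt (by omega)
  rw [← hdiv, hR0, zero_add, map_mul, hMK, zero_mul]

/-! ### the integral closure `B` of `K[x]` and the lift of `evalF` to `B` -/

section Lift

variable (K) in
/-- `K[X] → K[x] = Algebra.adjoin K {x}`. -/
def toAdj (x : F) : K[X] →+* Algebra.adjoin K {x} :=
  (Polynomial.aeval (R := K) (Fermat.Agent.S24Fib.tA K x)).toRingHom

theorem coe_toAdj (x : F) (p : K[X]) : ((toAdj K x p : Algebra.adjoin K {x}) : F) = aeval x p := by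
  unfold toAdj
  show ((aeval (Fermat.Agent.S24Fib.tA K x) p : Algebra.adjoin K {x}) : F) = _
  rw [Polynomial.aeval_subalgebra_coe]
  rfl

theorem toAdj_surjective (x : F) : Function.Surjective (toAdj K x) := by
  rintro ⟨a, ha⟩
  rw [Algebra.adjoin_singleton_eq_range_aeval] at ha
  obtain ⟨p, hp⟩ := ha
  refine ⟨p, Subtype.ext ?_⟩
  rw [coe_toAdj]
  exact hp

variable (K) in
/-- `K[X] → B`. -/
def toB (x : F) : K[X] →+* integralClosure (Algebra.adjoin K {x}) F :=
  (algebraMap (Algebra.adjoin K {x}) (integralClosure (Algebra.adjoin K {x}) F)).comp (toAdj K x)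

theorem coe_toB (x : F) (p : K[X]) :
    ((toB K x p : integralClosure (Algebra.adjoin K {x}) F) : F) = aeval x p :=
  coe_toAdj x p

theorem toB_isIntegral (x : F) : (toB K x).IsIntegral := by
  unfold toB
  apply RingHom.IsIntegral.trans
  · exact RingHom.isIntegral_of_surjective _ (toAdj_surjective x)
  · exact algebraMap_isIntegral_iff.mpr inferInstance

/-- `y` as an element of `B`, if `y ^ g = P(x)`. -/
theorem mem_integralClosure_of_pow_eq {x y : F} {g : ℕ} (hg : 0 < g) (P : K[X])
    (hy : y ^ g = aeval x P) : y ∈ integralClosure (Algebra.adjoin K {x}) F := by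
  refine ⟨X ^ g - C (toAdj K x P), Polynomial.monic_X_pow_sub_C _ hg.ne', ?_⟩
  rw [Polynomial.eval₂_sub, Polynomial.eval₂_pow, Polynomial.eval₂_X, Polynomial.eval₂_C, hy]
  show aeval x P - ((toAdj K x P : Algebra.adjoin K {x}) : F) = 0
  rw [coe_toAdj, sub_self]

variable (K) in
/-- evaluation `K[X][Y] → B` at `(x, y)`. -/
def evalB (x : F) (yB : integralClosure (Algebra.adjoin K {x}) F) :
    K[X][X] →+* integralClosure (Algebra.adjoin K {x}) F :=
  Polynomial.eval₂RingHom (toB K x) yB

theorem coe_evalB (x : F) (yB : integralClosure (Algebra.adjoin K {x}) F) (G : K[X][X]) :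
    ((evalB K x yB G : integralClosure (Algebra.adjoin K {x}) F) : F) = evalF x (yB : F) G := by
  unfold evalB evalF
  rw [Polynomial.coe_eval₂RingHom, Polynomial.coe_eval₂RingHom]
  have h := Polynomial.hom_eval₂ G (toB K x)
    (algebraMap (integralClosure (Algebra.adjoin K {x}) F) F) yB
  have h2 : (algebraMap (integralClosure (Algebra.adjoin K {x}) F) F).comp (toB K x) =
      (Polynomial.aeval (R := K) x).toRingHom := by
    ext p
    · simp [coe_toB]
    · simp [coe_toB]
  rw [h2] at h
  exact h

theorem evalB_isIntegral (x : F) (yB : integralClosure (Algebra.adjoin K {x}) F) :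
    (evalB K x yB).IsIntegral := by
  apply RingHom.IsIntegral.tower_top (Polynomial.C : K[X] →+* K[X][X])
  have h : (evalB K x yB).comp (Polynomial.C : K[X] →+* K[X][X]) = toB K x := by
    ext p
    · simp [evalB]
    · simp [evalB]
  rw [h]
  exact toB_isIntegral x

theorem ker_evalB (x : F) (yB : integralClosure (Algebra.adjoin K {x}) F) :
    RingHom.ker (evalB K x yB) = RingHom.ker (evalF (K := K) x (yB : F)) := by
  ext G
  rw [RingHom.mem_ker, RingHom.mem_ker, ← coe_evalB]
  constructor
  · intro h
    rw [h]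
    rfl
  · intro h
    exact Subtype.ext h

end Lift

/-! ### places from roots -/

section Places

variable [IsAlgClosed K]

theorem adicValuation_lt_one_iff_ord_pos (v : Place K F) {f : F} (hf : f ≠ 0) :
    v.adicValuation f < 1 ↔ 0 < v.ord f := by
  rw [v.adicValuation_eq_exp_neg_ord hf, ← WithZero.exp_zero, WithZero.exp_lt_exp]
  omega

/-- **places from roots.** -/
theorem exists_place_of_root {x y : F} (hx : Transcendental K x)
    [FiniteDimensional K⟮x⟯ F] [Algebra.IsSeparable K⟮x⟯ F] {g : ℕ} (hg : 0 < g) (P : K[X])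
    (hy : y ^ g = aeval x P)
    (hli : LinearIndependent K⟮x⟯ (fun i : Fin g => y ^ (i : ℕ)))
    {c r : K} (hr : r ^ g = P.eval c) :
    ∃ v : Place K F, v.adicValuation (x - algebraMap K F c) < 1 ∧
      v.adicValuation (y - algebraMap K F r) < 1 := by
  haveI := isDedekindDomain_integralClosure (F := F) hx
  haveI := isFractionRing_integralClosure (K := K) x
  set B := integralClosure (Algebra.adjoin K {x}) F with hB
  let yB : B := ⟨y, mem_integralClosure_of_pow_eq hg P hy⟩
  have hker : RingHom.ker (evalB K x yB) ≤ RingHom.ker (evalK c r) := by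
    rw [ker_evalB]
    exact ker_evalF_le hx hg P hy hli hr
  have hne : RingHom.ker (evalK (K := K) c r) ≠ ⊤ := RingHom.ker_ne_top _
  have hmap : (RingHom.ker (evalK (K := K) c r)).map (evalB K x yB) ≠ ⊤ := by
    intro h
    exact hne ((Ideal.map_eq_top_iff_of_ker_le _ hker (evalB_isIntegral x yB)).mp h)
  obtain ⟨Q, hQmax, hQ⟩ := Ideal.exists_le_maximal _ hmap
  -- the two generators
  have hxc : evalB K x yB (C (X - C c)) ∈ Q := by
    apply hQ
    apply Ideal.mem_map_of_mem
    rw [RingHom.mem_ker, evalK_C]
    simp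
  have hyr : evalB K x yB (X - C (C r)) ∈ Q := by
    apply hQ
    apply Ideal.mem_map_of_mem
    rw [RingHom.mem_ker, map_sub, evalK_X, evalK_C]
    simp
  have hxcF : ((evalB K x yB (C (X - C c)) : B) : F) = x - algebraMap K F c := by
    rw [coe_evalB, evalF_C]
    simp
  have hyrF : ((evalB K x yB (X - C (C r)) : B) : F) = y - algebraMap K F r := by
    rw [coe_evalB, map_sub, evalF_X, evalF_C]
    simp [yB]
  have hxc0 : x - algebraMap K F c ≠ 0 := by
    intro h
    apply hx
    have h2 : x = algebraMap K F c := sub_eq_zero.mp h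
    rw [h2]
    exact isAlgebraic_algebraMap c
  have hQbot : Q ≠ ⊥ := by
    intro h
    rw [h, Ideal.mem_bot] at hxc
    apply hxc0
    rw [← hxcF, hxc]
    rfl
  let P' : HeightOneSpectrum B := ⟨Q, hQmax.isPrime, hQbot⟩
  refine ⟨Place.ofHeightOneSpectrum (K := K) (F := F) P', ?_, ?_⟩
  · have hb0 : evalB K x yB (C (X - C c)) ≠ 0 := by
      intro h
      apply hxc0
      rw [← hxcF, h]
      rfl
    have := (Fermat.Agent.S24Bridge.mem_asIdeal_iff_ord_pos (K := K) (F := F) P' _ hb0).mp hxc
    rw [adicValuation_lt_one_iff_ord_pos _ hxc0, ← hxcF]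
    exact this
  · by_cases hy0 : y - algebraMap K F r = 0
    · rw [hy0, map_zero]
      exact zero_lt_one
    · have hb0 : evalB K x yB (X - C (C r)) ≠ 0 := by
        intro h
        apply hy0
        rw [← hyrF, h]
        rfl
      have := (Fermat.Agent.S24Bridge.mem_asIdeal_iff_ord_pos (K := K) (F := F) P' _ hb0).mp hyr
      rw [adicValuation_lt_one_iff_ord_pos _ hy0, ← hyrF]
      exact this

/-- the number of `g`-th roots of `a ≠ 0` in an algebraically closed field in which `g ≠ 0`. -/
theorem card_roots_pow_eq {g : ℕ} (hg : (g : K) ≠ 0) {a : K} (ha : a ≠ 0) :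
    Nat.card {r : K // r ^ g = a} = g := by
  classical
  have hsep : (X ^ g - C a : K[X]).Separable := Polynomial.separable_X_pow_sub_C a hg ha
  have hg0 : g ≠ 0 := by
    rintro rfl
    simp at hg
  have hne : (X ^ g - C a : K[X]) ≠ 0 := (Polynomial.monic_X_pow_sub_C a hg0).ne_zero
  have h1 := Polynomial.card_rootSet_eq_natDegree (K := K) hsep (IsAlgClosed.splits _)
  rw [Polynomial.natDegree_X_pow_sub_C] at h1
  have h2 : Nat.card ((X ^ g - C a : K[X]).rootSet K) = g := by
    rw [Nat.card_eq_fintype_card]
    exact h1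
  refine (Nat.card_congr ?_).trans h2
  refine Equiv.subtypeEquivRight fun r => ?_
  rw [Polynomial.mem_rootSet_of_ne hne]
  simp [sub_eq_zero]

/-- **lower bound for a fibre** from a `g`-th root of a unit. -/
theorem le_card_fibre (h : IsRRField K F) {x y : F} (hx : Transcendental K x)
    [FiniteDimensional K⟮x⟯ F] [Algebra.IsSeparable K⟮x⟯ F] {g : ℕ} (hg : (g : K) ≠ 0) (P : K[X])
    (hy : y ^ g = aeval x P)
    (hli : LinearIndependent K⟮x⟯ (fun i : Fin g => y ^ (i : ℕ)))
    {c : K} (hPc : P.eval c ≠ 0) :
    g ≤ Nat.card {v : Place K F // 0 < v.ord (x - algebraMap K F c)} := by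
  classical
  have hg0 : 0 < g := by
    rcases Nat.eq_zero_or_pos g with h0 | h0
    · rw [h0] at hg
      simp at hg
    · exact h0
  have hxc0 : x - algebraMap K F c ≠ 0 := by
    intro h'
    apply hx
    have h2 : x = algebraMap K F c := sub_eq_zero.mp h'
    rw [h2]
    exact isAlgebraic_algebraMap c
  haveI := finite_zeroFibre h hx c
  have hex : ∀ r : {r : K // r ^ g = P.eval c}, ∃ v : Place K F,
      v.adicValuation (x - algebraMap K F c) < 1 ∧
        v.adicValuation (y - algebraMap K F r.1) < 1 :=
    fun r => exists_place_of_root hx hg0 P hy hli r.2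
  choose f hf1 hf2 using hex
  let φ : {r : K // r ^ g = P.eval c} → {v : Place K F // 0 < v.ord (x - algebraMap K F c)} :=
    fun r => ⟨f r, (adicValuation_lt_one_iff_ord_pos _ hxc0).mp (hf1 r)⟩
  have hinj : Function.Injective φ := by
    intro r r' hrr
    have hv : f r = f r' := congrArg Subtype.val hrr
    by_contra hne
    have hne' : r.1 - r'.1 ≠ 0 := fun h0 => hne (Subtype.ext (sub_eq_zero.mp h0))
    have h1 := hf2 r
    have h2 := hf2 r'
    rw [← hv] at h2
    have h3 : (f r).adicValuation (algebraMap K F (r.1 - r'.1)) < 1 := by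
      have heq : algebraMap K F (r.1 - r'.1) =
          (y - algebraMap K F r'.1) - (y - algebraMap K F r.1) := by
        rw [map_sub]; ring
      rw [heq]
      exact lt_of_le_of_lt (Valuation.map_sub _ _ _) (max_lt h2 h1)
    rw [adicValuation_algebraMap_eq_one (f r) hne'] at h3
    exact lt_irrefl _ h3
  have := Nat.card_le_card_of_injective φ hinj
  rwa [card_roots_pow_eq hg hPc] at this

end Places

end Fermat.Agent.RRKum
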