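/-
Generic Kummer covers of the line, part 2 (helper63): counting lemmas.

* `mul_card_zeros_le`, `mul_card_poles_le`: if all zeros (poles) of `f` have multiplicity `≥ k`,
  then `k * #zeros ≤ deg (f)_∞` (`k * #poles ≤ deg (f)_∞`), with the equality cases.
* `IsUnitAt x c z`: `z = P(x) / Q(x)` with `P(c) ≠ 0 ≠ Q(c)`.
-/
import Mathlib
import Fermat.Agent.Lib.RR.Kummer.Split

set_option autoImplicit false
set_option linter.style.haveILetI false
set_option linter.unusedSectionVars false

noncomputable section

open AlgebraicCurve IntermediateField Polynomial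

namespace Fermat.Agent.RRKum

open Fermat.Agent.RR Fermat.Agent.RRHur

variable {K F : Type*} [Field K] [Field F] [Algebra K F]

/-! ### zeros and poles with multiplicities bounded below -/

section Count

theorem sum_ord_eq_zero (h : IsRRField K F) (f : F) :
    ∑ v ∈ (divOf h f).support, v.ord f = 0 := by
  have h1 := degree_divOf h f
  rw [degree_eq_sum h] at h1
  rw [← h1]
  exact Finset.sum_congr rfl fun v _ => (divOf_apply h f v).symm

theorem degree_poleDiv_eq_sum (h : IsRRField K F) (f : F) :
    Divisor.degree (poleDiv h f) = ∑ v ∈ (divOf h f).support, max (-(v.ord f)) 0 := by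
  rw [fibreDeg_degree_eq_sum_of_subset h (poleDiv h f) (divOf h f).support
    (fibreDeg_support_subset h f _ fun v hv => by rw [poleDiv_apply, hv]; simp)]
  rfl

theorem card_zeros_eq_sum (h : IsRRField K F) (f : F) :
    (Nat.card {v : Place K F // 0 < v.ord f} : ℤ) =
      ∑ v ∈ (divOf h f).support, (if 0 < v.ord f then (1 : ℤ) else 0) := by
  rw [fibreDeg_card_eq_sum (divOf h f).support (fun v => 0 < v.ord f) fun v hv => by
    rw [Finsupp.mem_support_iff, divOf_apply]
    exact ne_of_gt hv]
  refine Finset.sum_congr rfl fun v _ => ?_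
  congr

theorem card_poles_eq_sum (h : IsRRField K F) (f : F) :
    (Nat.card {v : Place K F // v.ord f < 0} : ℤ) =
      ∑ v ∈ (divOf h f).support, (if v.ord f < 0 then (1 : ℤ) else 0) := by
  rw [fibreDeg_card_eq_sum (divOf h f).support (fun v => v.ord f < 0) fun v hv => by
    rw [Finsupp.mem_support_iff, divOf_apply]
    exact ne_of_lt hv]
  refine Finset.sum_congr rfl fun v _ => ?_
  congr

/-- `deg (f)_∞ - k * #zeros` as a sum of nonnegative terms. -/
theorem degree_poleDiv_sub_eq_sum (h : IsRRField K F) (f : F) (k : ℤ) :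
    Divisor.degree (poleDiv h f) - k * (Nat.card {v : Place K F // 0 < v.ord f} : ℤ) =
      ∑ v ∈ (divOf h f).support,
        (if 0 < v.ord f then v.ord f - k else 0) := by
  classical
  have h0 := sum_ord_eq_zero h f
  rw [degree_poleDiv_eq_sum, card_zeros_eq_sum h, Finset.mul_sum, ← Finset.sum_sub_distrib]
  have h1 : ∑ v ∈ (divOf h f).support, (max (-(v.ord f)) 0 - k * (if 0 < v.ord f then (1 : ℤ) else 0))
      = ∑ v ∈ (divOf h f).support,
        ((max (-(v.ord f)) 0 - k * (if 0 < v.ord f then (1 : ℤ) else 0)) + v.ord f) := by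
    rw [Finset.sum_add_distrib, h0, add_zero]
  rw [h1]
  refine Finset.sum_congr rfl fun v _ => ?_
  split_ifs with hv
  · rw [max_eq_right (by omega)]
    ring
  · rw [max_eq_left (by omega)]
    ring

theorem mul_card_zeros_le (h : IsRRField K F) (f : F) (k : ℤ)
    (hk : ∀ v : Place K F, 0 < v.ord f → k ≤ v.ord f) :
    k * (Nat.card {v : Place K F // 0 < v.ord f} : ℤ) ≤ Divisor.degree (poleDiv h f) := by
  classical
  have h1 := degree_poleDiv_sub_eq_sum h f k
  have h2 : 0 ≤ ∑ v ∈ (divOf h f).support, (if 0 < v.ord f then v.ord f - k else 0) := by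
    apply Finset.sum_nonneg
    intro v _
    split_ifs with hv
    · have := hk v hv
      omega
    · exact le_rfl
  omega

/-- equality case: all zeros have multiplicity exactly `k`. -/
theorem ord_eq_of_mul_card_zeros_eq (h : IsRRField K F) (f : F) (k : ℤ)
    (hk : ∀ v : Place K F, 0 < v.ord f → k ≤ v.ord f)
    (heq : k * (Nat.card {v : Place K F // 0 < v.ord f} : ℤ) = Divisor.degree (poleDiv h f))
    (v : Place K F) (hv : 0 < v.ord f) : v.ord f = k := by
  classical
  have h1 := degree_poleDiv_sub_eq_sum h f k
  rw [heq, sub_self] at h1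
  have h2 := (Finset.sum_eq_zero_iff_of_nonneg (fun w _ => by
    split_ifs with hw
    · have := hk w hw
      omega
    · exact le_rfl)).mp h1.symm v (by
      rw [Finsupp.mem_support_iff, divOf_apply]
      exact ne_of_gt hv)
  rw [if_pos hv] at h2
  omega

/-- `deg (f)_∞ - k * #poles` as a sum of nonnegative terms. -/
theorem degree_poleDiv_sub_eq_sum' (h : IsRRField K F) (f : F) (k : ℤ) :
    Divisor.degree (poleDiv h f) - k * (Nat.card {v : Place K F // v.ord f < 0} : ℤ) =
      ∑ v ∈ (divOf h f).support,
        (if v.ord f < 0 then -v.ord f - k else 0) := by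
  classical
  rw [degree_poleDiv_eq_sum, card_poles_eq_sum h, Finset.mul_sum, ← Finset.sum_sub_distrib]
  refine Finset.sum_congr rfl fun v _ => ?_
  split_ifs with hv
  · rw [max_eq_left (by omega)]
    ring
  · rw [max_eq_right (by omega)]
    ring

theorem mul_card_poles_le (h : IsRRField K F) (f : F) (k : ℤ)
    (hk : ∀ v : Place K F, v.ord f < 0 → k ≤ -v.ord f) :
    k * (Nat.card {v : Place K F // v.ord f < 0} : ℤ) ≤ Divisor.degree (poleDiv h f) := by
  classical
  have h1 := degree_poleDiv_sub_eq_sum' h f k
  have h2 : 0 ≤ ∑ v ∈ (divOf h f).support, (if v.ord f < 0 then -v.ord f - k else 0) := by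
    apply Finset.sum_nonneg
    intro v _
    split_ifs with hv
    · have := hk v hv
      omega
    · exact le_rfl
  omega

/-- equality case: all poles have multiplicity exactly `k`. -/
theorem ord_eq_of_mul_card_poles_eq (h : IsRRField K F) (f : F) (k : ℤ)
    (hk : ∀ v : Place K F, v.ord f < 0 → k ≤ -v.ord f)
    (heq : k * (Nat.card {v : Place K F // v.ord f < 0} : ℤ) = Divisor.degree (poleDiv h f))
    (v : Place K F) (hv : v.ord f < 0) : -v.ord f = k := by
  classical
  have h1 := degree_poleDiv_sub_eq_sum' h f k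
  rw [heq, sub_self] at h1
  have h2 := (Finset.sum_eq_zero_iff_of_nonneg (fun w _ => by
    split_ifs with hw
    · have := hk w hw
      omega
    · exact le_rfl)).mp h1.symm v (by
      rw [Finsupp.mem_support_iff, divOf_apply]
      exact ne_of_lt hv)
  rw [if_pos hv] at h2
  omega

end Count

end Fermat.Agent.RRKum
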