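/-
Generic Kummer covers of the line, part 3 (helper63): rational units at a point and the
lower bound for the fibres of a Kummer cover.
-/
import Mathlib
import Fermat.Agent.Lib.RR.Kummer.Count

set_option autoImplicit false
set_option linter.style.haveILetI false
set_option linter.unusedSectionVars false

noncomputable section

open AlgebraicCurve IntermediateField Polynomial

namespace Fermat.Agent.RRKum

open Fermat.Agent.RR Fermat.Agent.RRHur

variable {K F : Type*} [Field K] [Field F] [Algebra K F]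

/-! ### rational functions of `x` which are units at `x = c` -/

/-- `z = P(x) / Q(x)` with `P(c) ≠ 0 ≠ Q(c)`. -/
def IsUnitAt (x : F) (c : K) (z : F) : Prop :=
  ∃ P Q : K[X], P.eval c ≠ 0 ∧ Q.eval c ≠ 0 ∧ z * aeval x Q = aeval x P

namespace IsUnitAt

variable {x : F} {c : K}

theorem aeval_ne_zero (hx : Transcendental K x) {P : K[X]} (hP : P.eval c ≠ 0) :
    aeval x P ≠ 0 := by
  apply aeval_ne_zero_of_transcendental hx
  rintro rfl
  simp at hP

theorem ne_zero (hx : Transcendental K x) {z : F} (hz : IsUnitAt x c z) : z ≠ 0 := by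
  obtain ⟨P, Q, hP, hQ, h⟩ := hz
  rintro rfl
  rw [zero_mul] at h
  exact aeval_ne_zero hx hP h.symm

theorem const {a : K} (ha : a ≠ 0) : IsUnitAt x c (algebraMap K F a) :=
  ⟨C a, 1, by simpa using ha, by simp, by simp⟩

theorem one : IsUnitAt x c (1 : F) :=
  ⟨1, 1, by simp, by simp, by simp⟩

theorem mul {z w : F} (hz : IsUnitAt x c z) (hw : IsUnitAt x c w) : IsUnitAt x c (z * w) := by
  obtain ⟨P, Q, hP, hQ, h⟩ := hz
  obtain ⟨P', Q', hP', hQ', h'⟩ := hw
  refine ⟨P * P', Q * Q', ?_, ?_, ?_⟩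
  · rw [eval_mul]; exact mul_ne_zero hP hP'
  · rw [eval_mul]; exact mul_ne_zero hQ hQ'
  · rw [map_mul, map_mul, ← h, ← h']
    ring

theorem inv (hx : Transcendental K x) {z : F} (hz : IsUnitAt x c z) : IsUnitAt x c z⁻¹ := by
  have hz0 := hz.ne_zero hx
  obtain ⟨P, Q, hP, hQ, h⟩ := hz
  refine ⟨Q, P, hQ, hP, ?_⟩
  rw [← h]
  field_simp

theorem pow {z : F} (hz : IsUnitAt x c z) (k : ℕ) : IsUnitAt x c (z ^ k) := by
  induction k with
  | zero => simpa using one
  | succ k ih => rw [pow_succ]; exact ih.mul hz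

theorem zpow (hx : Transcendental K x) {z : F} (hz : IsUnitAt x c z) (k : ℤ) :
    IsUnitAt x c (z ^ k) := by
  rcases k with k | k
  · simpa using hz.pow k
  · rw [zpow_negSucc]
    exact (hz.pow (k + 1)).inv hx

theorem prod {ι : Type*} (s : Finset ι) (f : ι → F) (hf : ∀ i ∈ s, IsUnitAt x c (f i)) :
    IsUnitAt x c (∏ i ∈ s, f i) := by
  classical
  induction s using Finset.induction_on with
  | empty => simpa using one
  | insert i s hi ih =>
    rw [Finset.prod_insert hi]
    exact (hf i (Finset.mem_insert_self i s)).mul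
      (ih fun j hj => hf j (Finset.mem_insert_of_mem hj))

theorem sub_const {c' : K} (hc : c' ≠ c) : IsUnitAt x c (x - algebraMap K F c') :=
  ⟨X - C c', 1, by simpa [sub_eq_zero] using hc.symm, by simp, by simp⟩

theorem one_sub_mul (c' : K) : IsUnitAt x (0 : K) (1 - algebraMap K F c' * x) :=
  ⟨1 - C c' * X, 1, by simp, by simp, by simp⟩

end IsUnitAt

/-! ### the lower bound for the fibre of a Kummer cover -/

section Lower

variable [IsAlgClosed K]

/-- **lower bound**: `W` of degree `n = g n'` over `K(x)`, `s ∈ K(x)ˣ`, and `(W ^ n' s) ^ g` a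
rational unit at `x = c`: then the fibre of `x` over `c` has at least `g` places. -/
theorem le_card_fibre_of_isUnitAt (h : IsRRField K F) {x W : F} (hx : Transcendental K x)
    [FiniteDimensional K⟮x⟯ F] [Algebra.IsSeparable K⟮x⟯ F] {n g n' : ℕ} (hn : n = g * n')
    (hn' : 0 < n') (hg : (g : K) ≠ 0)
    (hli : LinearIndependent K⟮x⟯ (fun i : Fin n => W ^ (i : ℕ)))
    {s : F} (hs : s ∈ K⟮x⟯) (hs0 : s ≠ 0) {c : K} (hz : IsUnitAt x c ((W ^ n' * s) ^ g)) :
    g ≤ Nat.card {v : Place K F // 0 < v.ord (x - algebraMap K F c)} := by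
  have hg0 : 0 < g := by
    rcases Nat.eq_zero_or_pos g with h0 | h0
    · rw [h0] at hg
      simp at hg
    · exact h0
  obtain ⟨P, Q, hP, hQ, hPQ⟩ := hz
  have hQx : aeval x Q ≠ 0 := IsUnitAt.aeval_ne_zero hx hQ
  set y : F := W ^ n' * s * aeval x Q with hy
  have hyg : y ^ g = aeval x (P * Q ^ (g - 1)) := by
    have h1 : (aeval x Q) ^ g = aeval x Q * (aeval x Q) ^ (g - 1) := by
      rw [← pow_succ', Nat.sub_add_cancel hg0]
    rw [hy, mul_pow, h1, ← mul_assoc, hPQ, map_mul, map_pow]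
  have hev : (P * Q ^ (g - 1)).eval c ≠ 0 := by
    rw [eval_mul, eval_pow]
    exact mul_ne_zero hP (pow_ne_zero _ hQ)
  -- linear independence of the powers of `y`
  let u : K⟮x⟯ := ⟨s * aeval x Q, mul_mem hs (aeval_mem_adjoin_simple x Q)⟩
  have hu0 : u ≠ 0 := by
    intro h0
    have : s * aeval x Q = 0 := congrArg Subtype.val h0
    exact mul_ne_zero hs0 hQx this
  let ι : Fin g → Fin n := fun j => ⟨n' * j, by
    rw [hn, mul_comm g n']
    exact Nat.mul_lt_mul_of_pos_left j.2 hn'⟩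
  have hι : Function.Injective ι := by
    intro j j' hjj
    have h1 : n' * (j : ℕ) = n' * (j' : ℕ) := congrArg Fin.val hjj
    exact Fin.ext (Nat.eq_of_mul_eq_mul_left hn' h1)
  have hli1 : LinearIndependent K⟮x⟯ (fun j : Fin g => W ^ (n' * (j : ℕ))) :=
    hli.comp ι hι
  have hli2 := hli1.units_smul (fun j : Fin g => (Units.mk0 u hu0) ^ (j : ℕ))
  have hli3 : LinearIndependent K⟮x⟯ (fun j : Fin g => y ^ (j : ℕ)) := by
    convert hli2 using 1
    funext j
    show y ^ (j : ℕ) = ((Units.mk0 u hu0) ^ (j : ℕ) : K⟮x⟯ˣ) • W ^ (n' * (j : ℕ))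
    rw [Units.smul_def, Units.val_pow_eq_pow_val, Units.val_mk0]
    show y ^ (j : ℕ) = ((u ^ (j : ℕ) : K⟮x⟯) : F) * W ^ (n' * (j : ℕ))
    rw [SubmonoidClass.coe_pow]
    show y ^ (j : ℕ) = (s * aeval x Q) ^ (j : ℕ) * W ^ (n' * (j : ℕ))
    rw [hy, pow_mul, ← mul_pow, mul_assoc, mul_comm]
  exact le_card_fibre h hx hg (P * Q ^ (g - 1)) hyg hli3 hev

end Lower

end Fermat.Agent.RRKum
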